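import Mathlib
import Fermat.Agent.S22.Deriv

set_option autoImplicit false

/-!
# Bol's identity (piece P2 of the S22 plan)

For `F` holomorphic on the upper half plane and `g : GL (Fin 2) ℝ` of positive determinant,
`dH^[m+1] (F ∣[-m] g) = (det g)⁻¹ ^ (m+1) • (dH^[m+1] F ∣[m+2] g)`.
-/

open UpperHalfPlane hiding I
open Complex
open scoped Manifold MatrixGroups ModularForm Topology

namespace Fermat.Agent.S22

noncomputable section

/-- The automorphy factor `τ ↦ c τ + d` as a function on `ℍ`. -/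
def denomH (g : GL (Fin 2) ℝ) : ℍ → ℂ := fun τ => denom g τ

theorem denomH_apply (g : GL (Fin 2) ℝ) (τ : ℍ) : denomH g τ = denom g τ := rfl

theorem mdifferentiable_denomH (g : GL (Fin 2) ℝ) : MDiff (denomH g) :=
  mdifferentiable_denom g

theorem denomH_ne_zero (g : GL (Fin 2) ℝ) (τ : ℍ) : denomH g τ ≠ 0 := denom_ne_zero g τ

theorem dH_denomH (g : GL (Fin 2) ℝ) : dH (denomH g) = fun _ => ((g 1 0 : ℝ) : ℂ) := by
  ext τ
  have h1 : HasDerivAt (fun w : ℂ => ((g 1 0 : ℝ) : ℂ) * w + ((g 1 1 : ℝ) : ℂ))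
      ((g 1 0 : ℝ) : ℂ) (τ : ℂ) := by
    simpa using ((hasDerivAt_id (τ : ℂ)).const_mul ((g 1 0 : ℝ) : ℂ)).add_const ((g 1 1 : ℝ) : ℂ)
  have h2 : (denomH g ∘ ofComplex) =ᶠ[𝓝 (τ : ℂ)]
      fun w : ℂ => ((g 1 0 : ℝ) : ℂ) * w + ((g 1 1 : ℝ) : ℂ) := by
    filter_upwards [isOpen_upperHalfPlaneSet.mem_nhds τ.im_pos] with w hw
    simp only [Function.comp_apply, denomH, denom, ofComplex_apply_of_im_pos hw]
  exact (h1.congr_of_eventuallyEq h2).deriv

/-- How `dH` interacts with the slash action (un-normalised form of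
`Derivative.normalizedDerivOfComplex_slash`). -/
theorem dH_slash {k : ℤ} {F : ℍ → ℂ} (hF : MDiff F) {g : GL (Fin 2) ℝ} (hg : 0 < g.val.det) :
    dH (F ∣[k] g) = fun z : ℍ => ((g.val.det : ℝ) : ℂ)⁻¹ * (dH F ∣[k + 2] g) z -
      (k : ℂ) * (((g 1 0 : ℝ) : ℂ) / denom g z) * (F ∣[k] g) z := by
  have hσ (x : ℂ) : σ g x = x := by
    have hdet : g.det.val = g.val.det := Matrix.GeneralLinearGroup.val_det_apply g
    simp [σ, hdet, hg]
  have h := Derivative.normalizedDerivOfComplex_slash (k := k) hF hg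
  have h1 : (Derivative.normalizedDerivOfComplex F) ∣[k + 2] g =
      (2 * (Real.pi : ℂ) * I)⁻¹ • (dH F ∣[k + 2] g) := by
    rw [normalizedDeriv_eq_smul_dH, ModularForm.smul_slash, hσ]
  ext z
  have hz := congrFun h z
  rw [normalizedDeriv_eq_smul_dH, h1] at hz
  simp only [Pi.smul_apply, smul_eq_mul] at hz
  have hne := two_pi_I_ne_zero_S22
  have : dH (F ∣[k] g) z = (2 * (Real.pi : ℂ) * I) *
      ((2 * (Real.pi : ℂ) * I)⁻¹ * dH (F ∣[k] g) z) := by
    field_simp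
  rw [this, hz]
  field_simp

/-- Lowering the weight by one multiplies by `denom / det`. -/
theorem slash_sub_one (k : ℤ) (F : ℍ → ℂ) {g : GL (Fin 2) ℝ} (hg : 0 < g.val.det) :
    F ∣[k - 1] g = ((g.val.det : ℝ) : ℂ)⁻¹ • (denomH g * (F ∣[k] g)) := by
  have hdet : g.det.val = g.val.det := Matrix.GeneralLinearGroup.val_det_apply g
  have hdetℂ : ((g.val.det : ℝ) : ℂ) ≠ 0 := Complex.ofReal_ne_zero.mpr hg.ne'
  ext z
  have hz := denom_ne_zero g z
  simp only [ModularForm.slash_apply, Pi.smul_apply, Pi.mul_apply, smul_eq_mul, denomH, hdet,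
    abs_of_pos hg]
  rw [show k - 1 - 1 = (k - 1) - 1 by ring, zpow_sub_one₀ hdetℂ (k - 1),
    show -(k - 1) = -k + 1 by ring, zpow_add_one₀ hz (-k)]
  ring

/-- Leibniz rule for multiplication by the (affine) automorphy factor. -/
theorem iterate_dH_denomH_mul (g : GL (Fin 2) ℝ) {G : ℍ → ℂ} (hG : MDiff G) (n : ℕ) :
    dH^[n + 1] (denomH g * G) =
      denomH g * dH^[n + 1] G + (((n : ℂ) + 1) * ((g 1 0 : ℝ) : ℂ)) • dH^[n] G := by
  induction n with
  | zero =>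
    simp only [Function.iterate_succ, Function.iterate_zero, Function.comp_apply, id_eq,
      Nat.cast_zero, zero_add, one_mul]
    rw [dH_mul (mdifferentiable_denomH g) hG, dH_denomH]
    ext z
    simp only [Pi.add_apply, Pi.mul_apply, Pi.smul_apply, smul_eq_mul]
    ring
  | succ n ih =>
    rw [Function.iterate_succ_apply', ih]
    have hn : MDiff (dH^[n] G) := mdifferentiable_iterate_dH hG n
    have hn1 : MDiff (dH^[n + 1] G) := mdifferentiable_iterate_dH hG (n + 1)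
    rw [dH_add ((mdifferentiable_denomH g).mul hn1) (hn.const_smul _),
      dH_mul (mdifferentiable_denomH g) hn1, dH_smul _ hn, dH_denomH,
      ← Function.iterate_succ_apply' dH (n + 1) G, ← Function.iterate_succ_apply' dH n G]
    ext z
    simp only [Pi.add_apply, Pi.mul_apply, Pi.smul_apply, smul_eq_mul, Nat.cast_add, Nat.cast_one]
    ring

/-- **Bol's identity.** -/
theorem bol_identity {F : ℍ → ℂ} (hF : MDiff F) {g : GL (Fin 2) ℝ} (hg : 0 < g.val.det)
    (m : ℕ) :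
    dH^[m + 1] (F ∣[-(m : ℤ)] g) =
      (((g.val.det : ℝ) : ℂ)⁻¹) ^ (m + 1) • ((dH^[m + 1] F) ∣[(m : ℤ) + 2] g) := by
  have hdetℂ : ((g.val.det : ℝ) : ℂ) ≠ 0 := Complex.ofReal_ne_zero.mpr hg.ne'
  induction m with
  | zero =>
    simp only [Nat.cast_zero, neg_zero, zero_add, Function.iterate_one, pow_one]
    rw [dH_slash hF hg]
    ext z
    simp
  | succ m ih =>
    -- notation
    set G : ℍ → ℂ := F ∣[-(m : ℤ)] g with hGdef
    set H : ℍ → ℂ := dH^[m + 1] F with hHdef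
    have hG : MDiff G := hF.slash _ g
    have hH : MDiff H := mdifferentiable_iterate_dH hF (m + 1)
    have hHs : MDiff (H ∣[(m : ℤ) + 2] g) := hH.slash _ g
    have e1 : F ∣[-((m + 1 : ℕ) : ℤ)] g = ((g.val.det : ℝ) : ℂ)⁻¹ • (denomH g * G) := by
      rw [show -((m + 1 : ℕ) : ℤ) = -(m : ℤ) - 1 by push_cast; ring]
      exact slash_sub_one _ F hg
    have e2 : dH^[m + 1] G = (((g.val.det : ℝ) : ℂ)⁻¹) ^ (m + 1) • (H ∣[(m : ℤ) + 2] g) := ih
    have e3 : dH^[m + 2] G = (((g.val.det : ℝ) : ℂ)⁻¹) ^ (m + 1) • dH (H ∣[(m : ℤ) + 2] g) := by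
      rw [Function.iterate_succ_apply', e2, dH_smul _ hHs]
    have e4 : (dH H) ∣[(m : ℤ) + 2 + 2 - 1] g =
        ((g.val.det : ℝ) : ℂ)⁻¹ • (denomH g * ((dH H) ∣[(m : ℤ) + 2 + 2] g)) :=
      slash_sub_one _ _ hg
    rw [e1, iterate_dH_smul _ ((mdifferentiable_denomH g).mul hG),
      iterate_dH_denomH_mul g hG (m + 1), e3, e2, dH_slash hH hg,
      Function.iterate_succ_apply' dH (m + 1) F, ← hHdef,
      show (((m + 1 : ℕ) : ℤ) + 2) = (m : ℤ) + 2 + 2 - 1 by push_cast; ring, e4]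
    ext z
    have hz : denom g z ≠ 0 := denom_ne_zero g z
    simp only [Pi.add_apply, Pi.mul_apply, Pi.smul_apply, smul_eq_mul, denomH, Nat.cast_add,
      Nat.cast_one, Int.cast_add, Int.cast_natCast, Int.cast_ofNat]
    have hJ : denom g z * (((g 1 0 : ℝ) : ℂ) / denom g z) = ((g 1 0 : ℝ) : ℂ) := by
      field_simp
    linear_combination
      (-((m : ℂ) + 2) * (((g.val.det : ℝ) : ℂ)⁻¹) ^ (m + 2) * (H ∣[(m : ℤ) + 2] g) z) * hJ

/-- Interface name used by the S22 assembly. -/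
theorem bol (m : ℕ) {F : ℍ → ℂ} (hF : MDiff F) {g : GL (Fin 2) ℝ} (hg : 0 < g.val.det) :
    dH^[m + 1] (F ∣[-(m : ℤ)] g) =
      ((g.val.det : ℂ)⁻¹) ^ (m + 1) • ((dH^[m + 1] F) ∣[(m : ℤ) + 2] g) :=
  bol_identity hF hg m

end

end Fermat.Agent.S22
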