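import Mathlib
import Fermat.Prelude.Def_CuspForm_HeckeAlgebra
import Fermat.Prelude.Thm_Subgroup_IsArithmetic_exists_nat_mem_strictPeriods_conj
import Fermat.Agent.Lib.Period.Primitive
import Fermat.Agent.S22.Deriv
import Fermat.Agent.S22.Bol
import Fermat.Agent.S22.Poly

/-!
# S22, part P4: separation

If the Eichler integral `E` of a cusp form `f` of weight `m + 2` on `Γ₀(N)` is invariant under the
weight `-m` action of `Γ₀(N)`, then `f = 0`.
-/

set_option autoImplicit false

namespace Fermat.Agent.S22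

open UpperHalfPlane Polynomial Matrix.SpecialLinearGroup Filter
open scoped ModularForm MatrixGroups Manifold Topology Pointwise

/-! ### Elementary facts about `dH` -/

theorem sep_dH_eq_of_hasDerivAt {F f : ℍ → ℂ}
    (h : ∀ τ : ℍ, HasDerivAt (F ∘ ofComplex) (f τ) (τ : ℂ)) : dH F = f :=
  funext fun τ => (h τ).deriv

theorem sep_dH_sub {F G : ℍ → ℂ} (hF : MDiff F) (hG : MDiff G) : dH (F - G) = dH F - dH G := by
  funext τ
  have h1 := UpperHalfPlane.mdifferentiableAt_iff.mp (hF τ)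
  have h2 := UpperHalfPlane.mdifferentiableAt_iff.mp (hG τ)
  show deriv ((F - G) ∘ ofComplex) (τ : ℂ) = _
  have : ((F - G) ∘ ofComplex) = (F ∘ ofComplex) - (G ∘ ofComplex) := rfl
  rw [this, deriv_sub h1 h2]
  rfl

theorem sep_dH_const (c : ℂ) : dH (fun _ : ℍ => c) = 0 := by
  funext τ
  show deriv ((fun _ : ℍ => c) ∘ ofComplex) (τ : ℂ) = 0
  have : ((fun _ : ℍ => c) ∘ ofComplex) = fun _ : ℂ => c := rfl
  rw [this, deriv_const]

theorem sep_dH_zero : dH (0 : ℍ → ℂ) = 0 := sep_dH_const 0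

theorem sep_iterate_dH_zero (n : ℕ) : dH^[n] (0 : ℍ → ℂ) = 0 := by
  induction n with
  | zero => rfl
  | succ n ih => rw [Function.iterate_succ_apply', ih, sep_dH_zero]

theorem sep_mdiff_iterate_dH {F : ℍ → ℂ} (hF : MDiff F) (n : ℕ) : MDiff (dH^[n] F) := by
  induction n with
  | zero => exact hF
  | succ n ih =>
    rw [Function.iterate_succ_apply']
    exact mdiff_dH ih

theorem sep_iterate_dH_sub {F G : ℍ → ℂ} (hF : MDiff F) (hG : MDiff G) (n : ℕ) :
    dH^[n] (F - G) = dH^[n] F - dH^[n] G := by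
  induction n with
  | zero => rfl
  | succ n ih =>
    rw [Function.iterate_succ_apply', Function.iterate_succ_apply', Function.iterate_succ_apply',
      ih, sep_dH_sub (sep_mdiff_iterate_dH hF n) (sep_mdiff_iterate_dH hG n)]

/-- Iterated decaying periodic primitives. -/
theorem sep_exists_iterated_primitive {h : ℝ} (hh : 0 < h) (n : ℕ) :
    ∀ {f : ℍ → ℂ}, MDiff f → Function.Periodic (f ∘ ofComplex) h → IsZeroAtImInfty f →
      ∃ F : ℍ → ℂ, MDiff F ∧ dH^[n] F = f ∧ Function.Periodic (F ∘ ofComplex) h ∧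
        IsZeroAtImInfty F := by
  induction n with
  | zero => exact fun {f} hf hper hz => ⟨f, hf, rfl, hper, hz⟩
  | succ n ih =>
    intro f hf hper hz
    obtain ⟨F₁, hF₁, hd₁, hper₁, hz₁⟩ := Fermat.Agent.Period.exists_periodic_primitive hh hf hper hz
    obtain ⟨F, hF, hd, hperF, hzF⟩ := ih hF₁ hper₁ hz₁
    refine ⟨F, hF, ?_, hperF, hzF⟩
    rw [Function.iterate_succ_apply', hd]
    exact sep_dH_eq_of_hasDerivAt hd₁

/-! ### Periodic polynomials are constant -/

theorem sep_poly_const_of_periodic (p : ℂ[X]) {M : ℝ} (hM : M ≠ 0)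
    (h : ∀ τ : ℍ, p.eval ((τ : ℂ) + M) = p.eval (τ : ℂ)) : ∃ c : ℂ, p = C c := by
  have hMc : (M : ℂ) ≠ 0 := by exact_mod_cast hM
  -- the polynomial `p(X + M) - p` vanishes on the upper half-plane, hence is zero
  have hq : p.comp (X + C (M : ℂ)) - p = 0 := by
    apply Polynomial.eq_zero_of_infinite_isRoot
    have hinf : (Set.range fun n : ℕ => ((n : ℂ) + Complex.I)).Infinite := by
      apply Set.infinite_range_of_injective
      intro a b hab
      have := congrArg Complex.re hab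
      simpa using this
    refine hinf.mono ?_
    rintro _ ⟨n, rfl⟩
    have him : 0 < ((n : ℂ) + Complex.I).im := by simp
    have := h ⟨(n : ℂ) + Complex.I, him⟩
    simp only [Set.mem_ofPred_eq, IsRoot.def, eval_sub, eval_comp, eval_add, eval_X, eval_C]
    rw [sub_eq_zero]
    exact this
  have hq' : p.comp (X + C (M : ℂ)) = p := sub_eq_zero.mp hq
  have hshift : ∀ z : ℂ, p.eval (z + M) = p.eval z := by
    intro z
    have := congrArg (Polynomial.eval z) hq'
    simpa [eval_comp] using this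
  have hn : ∀ n : ℕ, p.eval ((n : ℂ) * M) = p.eval 0 := by
    intro n
    induction n with
    | zero => simp
    | succ n ih =>
      rw [← ih, ← hshift ((n : ℂ) * M)]
      congr 1
      push_cast
      ring
  refine ⟨p.eval 0, ?_⟩
  have hz : p - C (p.eval 0) = 0 := by
    apply Polynomial.eq_zero_of_infinite_isRoot
    have hinf : (Set.range fun n : ℕ => ((n : ℂ) * M)).Infinite := by
      apply Set.infinite_range_of_injective
      intro a b hab
      have := mul_right_cancel₀ hMc hab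
      exact_mod_cast this
    refine hinf.mono ?_
    rintro _ ⟨n, rfl⟩
    simp only [Set.mem_ofPred_eq, IsRoot.def, eval_sub, eval_C]
    rw [hn n, sub_self]
  exact sub_eq_zero.mp hz

/-! ### The main argument -/

section Main

variable {N : ℕ} [NeZero N] {m : ℕ}

/-- `E` as a slash-invariant form of weight `-m`. -/
noncomputable def sepSIF (E : ℍ → ℂ)
    (hinv : ∀ γ ∈ CongruenceSubgroup.Gamma0 N, E ∣[-(m : ℤ)] (mapGL ℝ γ) = E) :
    SlashInvariantForm (CongruenceSubgroup.Gamma0 N : Subgroup (GL (Fin 2) ℝ)) (-(m : ℤ)) where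
  toFun := E
  slash_action_eq' := by
    rintro γ ⟨γ₀, hγ₀, rfl⟩
    exact hinv γ₀ hγ₀

/-- Key step: for every `σ ∈ SL(2, ℤ)` the function `E ∣[-m] σ` is bounded at `i∞`. -/
theorem sep_isBoundedAtImInfty_slash (f : CuspForm (CongruenceSubgroup.Gamma0 N) ((m : ℤ) + 2))
    (E : ℍ → ℂ) (hE : MDiff E) (hd : dH^[m + 1] E = f)
    (hinv : ∀ γ ∈ CongruenceSubgroup.Gamma0 N, E ∣[-(m : ℤ)] (mapGL ℝ γ) = E) (σ : SL(2, ℤ)) :
    IsBoundedAtImInfty (E ∣[-(m : ℤ)] (mapGL ℝ σ)) := by
  set g : GL (Fin 2) ℝ := mapGL ℝ σ with hg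
  have hdet : g.val.det = 1 := by
    rw [← Matrix.GeneralLinearGroup.val_det_apply]; simp [hg]
  have hdetpos : 0 < g.val.det := by rw [hdet]; exact one_pos
  -- a common period of the conjugate group
  obtain ⟨M, hMpos, hMper⟩ := Subgroup.IsArithmetic.exists_nat_mem_strictPeriods_conj
    (CongruenceSubgroup.Gamma0 N : Subgroup (GL (Fin 2) ℝ))
  have hM : (M : ℝ) ∈ (ConjAct.toConjAct g⁻¹ •
      (CongruenceSubgroup.Gamma0 N : Subgroup (GL (Fin 2) ℝ))).strictPeriods := by
    have := hMper σ⁻¹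
    rwa [map_inv] at this
  have hMpos' : (0 : ℝ) < M := by exact_mod_cast hMpos
  -- the translated cusp form
  set ft : ℍ → ℂ := ⇑f ∣[(m : ℤ) + 2] g with hft
  have hft_mdiff : MDiff ft := CuspFormClass.holo (CuspForm.translate f g)
  have hft_per : Function.Periodic (ft ∘ ofComplex) ((M : ℝ) : ℂ) :=
    SlashInvariantFormClass.periodic_comp_ofComplex (CuspForm.translate f g) hM
  have hft_zero : IsZeroAtImInfty ft := CuspFormClass.zero_at_infty_slash f σ
  -- its iterated primitive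
  obtain ⟨Et, hEt, hdEt, hEt_per, hEt_zero⟩ :=
    sep_exists_iterated_primitive hMpos' (m + 1) hft_mdiff hft_per hft_zero
  -- Bol's identity
  have hEg : MDiff (E ∣[-(m : ℤ)] g) := hE.slash _ _
  have hbol : dH^[m + 1] (E ∣[-(m : ℤ)] g) = ft := by
    rw [bol m hE hdetpos, hdet, hd]
    simp [hft]
  have hdiff : dH^[m + 1] (E ∣[-(m : ℤ)] g - Et) = 0 := by
    rw [sep_iterate_dH_sub hEg hEt, hbol, hdEt, sub_self]
  obtain ⟨p, -, hp⟩ := exists_poly_of_iterate_dH_eq_zero m (hEg.sub hEt) hdiff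
  -- periodicity
  have hEg_per : Function.Periodic ((E ∣[-(m : ℤ)] g) ∘ ofComplex) ((M : ℝ) : ℂ) :=
    SlashInvariantFormClass.periodic_comp_ofComplex
      (SlashInvariantForm.translate (sepSIF E hinv) g) hM
  have hp_per : ∀ τ : ℍ, p.eval ((τ : ℂ) + (M : ℝ)) = p.eval (τ : ℂ) := by
    intro τ
    have him : 0 < ((τ : ℂ) + (M : ℝ)).im := by simpa using τ.2
    have h1 := hp ⟨(τ : ℂ) + (M : ℝ), him⟩
    have h2 := hp τ
    have e1 : (E ∣[-(m : ℤ)] g) ⟨(τ : ℂ) + (M : ℝ), him⟩ = (E ∣[-(m : ℤ)] g) τ := by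
      have := hEg_per (τ : ℂ)
      rwa [Function.comp_apply, Function.comp_apply, ofComplex_apply_of_im_pos him,
        ofComplex_apply] at this
    have e2 : Et ⟨(τ : ℂ) + (M : ℝ), him⟩ = Et τ := by
      have := hEt_per (τ : ℂ)
      rwa [Function.comp_apply, Function.comp_apply, ofComplex_apply_of_im_pos him,
        ofComplex_apply] at this
    rw [← h1, ← h2]
    simp only [Pi.sub_apply]
    rw [e1, e2]
  obtain ⟨c, hc⟩ := sep_poly_const_of_periodic p hMpos'.ne' hp_per
  have hEq : E ∣[-(m : ℤ)] g = Et + fun _ => c := by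
    funext τ
    have := hp τ
    rw [hc, eval_C] at this
    simp only [Pi.sub_apply] at this
    simp only [Pi.add_apply]
    rw [← this]
    ring
  rw [hEq]
  exact hEt_zero.isBoundedAtImInfty.add (Filter.const_boundedAtFilter _ c)

end Main

section Final

variable {N : ℕ} [NeZero N] {m : ℕ}

/-- `E` as a modular form of weight `-m`. -/
noncomputable def sepMF (f : CuspForm (CongruenceSubgroup.Gamma0 N) ((m : ℤ) + 2))
    (E : ℍ → ℂ) (hE : MDiff E) (hd : dH^[m + 1] E = f)
    (hinv : ∀ γ ∈ CongruenceSubgroup.Gamma0 N, E ∣[-(m : ℤ)] (mapGL ℝ γ) = E) :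
    ModularForm (CongruenceSubgroup.Gamma0 N : Subgroup (GL (Fin 2) ℝ)) (-(m : ℤ)) where
  toSlashInvariantForm := sepSIF E hinv
  holo' := hE
  bdd_at_cusps' := fun {c} hc => by
    rw [Subgroup.IsArithmetic.isCusp_iff_isCusp_SL2Z] at hc
    rw [OnePoint.isBoundedAt_iff_forall_SL2Z hc]
    intro γ _
    exact sep_isBoundedAtImInfty_slash f E hE hd hinv γ

theorem separation (N : ℕ) [NeZero N] (m : ℕ)
    (f : CuspForm (CongruenceSubgroup.Gamma0 N) ((m : ℤ) + 2))
    (E : ℍ → ℂ) (hE : MDiff E) (hd : dH^[m + 1] E = f) (hz : IsZeroAtImInfty E)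
    (hinv : ∀ γ ∈ CongruenceSubgroup.Gamma0 N, E ∣[-(m : ℤ)] (mapGL ℝ γ) = E) : f = 0 := by
  have hconst : ∃ c : ℂ, E = fun _ => c := by
    rcases Nat.eq_zero_or_pos m with hm | hm
    · subst hm
      have h0 : (-((0 : ℕ) : ℤ)) = 0 := by simp
      obtain ⟨c, hc⟩ := ModularForm.eq_const_of_weight_zero
        (ModularForm.mcast h0 (sepMF f E hE hd hinv))
      exact ⟨c, hc⟩
    · have hneg : (-(m : ℤ)) < 0 := by omega
      have h0 := ModularForm.isZero_of_neg_weight hneg (sepMF f E hE hd hinv)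
      refine ⟨0, ?_⟩
      have := congrArg (fun F : ModularForm _ _ => (F : ℍ → ℂ)) h0
      exact this
  obtain ⟨c, hc⟩ := hconst
  have hf0 : (f : ℍ → ℂ) = 0 := by
    rw [← hd, hc, Function.iterate_succ_apply, sep_dH_const, sep_iterate_dH_zero]
  exact DFunLike.coe_injective hf0

end Final

end Fermat.Agent.S22
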