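import Mathlib
import Fermat.Prelude.Def_CuspForm_HeckeAlgebra

set_option autoImplicit false
set_option linter.style.haveILetI false

/-!
# Trivial weights for S22

For `k ≤ 0` or `k` odd every cusp form on `Γ₀(N)` vanishes, and then the Hecke algebra is
(trivially) a finite `ℤ`-module.
-/

open UpperHalfPlane
open scoped Manifold MatrixGroups ModularForm Topology

namespace Fermat.Agent.S22

theorem cuspForm_eq_zero_of_nonpos (N : ℕ) [NeZero N] {k : ℤ} (hk : k ≤ 0)
    (f : CuspForm (CongruenceSubgroup.Gamma0 N) k) : f = 0 := by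
  rcases hk.lt_or_eq with hneg | rfl
  · have h := ModularForm.isZero_of_neg_weight hneg (CuspForm.toModularFormₗ f)
    exact CuspForm.toModularFormₗ_injective (by rw [h, map_zero])
  · obtain ⟨c, hc⟩ := ModularForm.eq_const_of_weight_zero (CuspForm.toModularFormₗ f)
    have hfc : (f : ℍ → ℂ) = Function.const ℍ c := by
      rw [← hc]; rfl
    have hz : IsZeroAtImInfty (f : ℍ → ℂ) := CuspFormClass.zero_at_infty f
    have hc0 : c = 0 := by
      rw [hfc] at hz
      have h1 : Filter.Tendsto (Function.const ℍ c) atImInfty (nhds 0) := hz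
      have h2 : Filter.Tendsto (Function.const ℍ c) atImInfty (nhds c) := tendsto_const_nhds
      exact tendsto_nhds_unique h2 h1
    ext z
    have := congrFun hfc z
    simpa [hc0] using this

theorem neg_one_mem_Gamma0_map (N : ℕ) :
    (-1 : GL (Fin 2) ℝ) ∈
      ((CongruenceSubgroup.Gamma0 N : Subgroup SL(2, ℤ)) : Subgroup (GL (Fin 2) ℝ)) := by
  refine ⟨-1, ?_, ?_⟩
  · simp [CongruenceSubgroup.Gamma0_mem]
  · ext i j
    simp [Matrix.SpecialLinearGroup.mapGL]

theorem cuspForm_eq_zero_of_odd (N : ℕ) [NeZero N] {k : ℤ} (hk : Odd k)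
    (f : CuspForm (CongruenceSubgroup.Gamma0 N) k) : f = 0 := by
  have h := ModularForm.eq_zero_of_neg_one_mem (neg_one_mem_Gamma0_map N) hk
    (CuspForm.toModularFormₗ f)
  exact CuspForm.toModularFormₗ_injective (by rw [h, map_zero])

theorem moduleFinite_heckeAlgebra_of_forall_eq_zero (N : ℕ) [NeZero N] (k : ℤ) (S : Set ℕ)
    (h : ∀ f : CuspForm (CongruenceSubgroup.Gamma0 N) k, f = 0) :
    Module.Finite ℤ (CuspForm.heckeAlgebra N k S) := by
  haveI : Subsingleton (CuspForm (CongruenceSubgroup.Gamma0 N) k) :=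
    ⟨fun a b => by rw [h a, h b]⟩
  haveI : Subsingleton (Module.End ℂ (CuspForm (CongruenceSubgroup.Gamma0 N) k)) :=
    ⟨fun a b => LinearMap.ext fun x => Subsingleton.elim _ _⟩
  haveI : Subsingleton (CuspForm.heckeAlgebra N k S) :=
    ⟨fun a b => Subtype.ext (Subsingleton.elim _ _)⟩
  infer_instance

end Fermat.Agent.S22
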