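import Fermat.Agent.S22.AlgCore
import Fermat.Agent.S22.HeckeT
import Fermat.Agent.S22.Separation
import Fermat.Agent.S22.Trivial

set_option autoImplicit false
set_option linter.unusedSectionVars false

/-!
# Assembly: the Hecke algebra is a finite `ℤ`-module (weights `k = m + 2`)
-/

namespace Fermat.Agent.S22

open UpperHalfPlane Polynomial Matrix.SpecialLinearGroup
open scoped ModularForm MatrixGroups Manifold

section

variable {N : ℕ} [NeZero N] {m : ℕ}

local notation "V" => CuspForm (CongruenceSubgroup.Gamma0 N) ((m : ℤ) + 2)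

/-- The period lattice separates the points of `S_{m+2}(Γ₀(N))`. -/
theorem periodLattice_separates (f : V) (h : ∀ l ∈ periodLattice N m, l f = 0) : f = 0 := by
  have hpoly : ∀ γ : CongruenceSubgroup.Gamma0 N, periodPoly γ f = 0 := by
    intro γ
    apply eq_zero_of_intFunctionals (natDegree_periodPoly γ f)
    intro φ hφ
    have := h _ (comp_periodPolyLin_mem_periodLattice (m := m) γ hφ)
    simpa using this
  refine separation N m f (eichler f) (mdiff_eichler f) (iterate_dH_eichler f)
    (isZeroAtImInfty_eichler f) ?_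
  intro γ hγ
  have h0 : periodFun γ f = 0 := by
    funext τ
    have := periodFun_eq_eval ⟨γ, hγ⟩ f τ
    rw [hpoly ⟨γ, hγ⟩] at this
    simpa using this
  rw [periodFun, sub_eq_zero] at h0
  exact h0

/-- Main assembly, parametrised by the two remaining inputs. -/
theorem moduleFinite_heckeAlgebra_of_inputs (S : Set ℕ)
    (hfg : (periodLattice N m).FG)
    (hU : ∀ {q : ℕ} (_ : q.Prime) (hqN : q ∣ N),
      ∀ l ∈ periodLattice N m, l ∘ₗ (CuspForm.heckeULin ((m : ℤ) + 2) hqN) ∈ periodLattice N m) :
    Module.Finite ℤ (CuspForm.heckeAlgebra N ((m : ℤ) + 2) S) := by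
  refine moduleFinite_adjoin_of_dual_lattice (CuspForm.heckeGenerators N ((m : ℤ) + 2) S)
    (periodLattice N m) hfg periodLattice_separates ?_
  rintro g (⟨ℓ, hℓ, hℓN, -, rfl⟩ | ⟨q, hqN, hq, -, rfl⟩) l hl
  · exact periodLattice_stable_T hℓ hℓN hl
  · exact hU hq hqN l hl

end

end Fermat.Agent.S22
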