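import Fermat.Agent.S22.Eichler

set_option autoImplicit false

/-!
# The period lattice: integral functionals of period polynomials
-/

namespace Fermat.Agent.S22

open UpperHalfPlane Polynomial Matrix.SpecialLinearGroup
open scoped ModularForm MatrixGroups Manifold

/-- The `ℤ`-lattice of period functionals on `S_{m+2}(Γ₀(N))`: the `ℤ`-span of the functionals
`f ↦ φ (periodPoly γ f)` for `γ ∈ Γ₀(N)` and `φ` an integral functional on polynomials. -/
noncomputable def periodLattice (N : ℕ) [NeZero N] (m : ℕ) :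
    Submodule ℤ (CuspForm (CongruenceSubgroup.Gamma0 N) ((m : ℤ) + 2) →ₗ[ℂ] ℂ) :=
  Submodule.span ℤ {l | ∃ γ : CongruenceSubgroup.Gamma0 N, ∃ φ ∈ intFunctionals m,
    l = φ ∘ₗ periodPolyLin γ}

theorem comp_periodPolyLin_mem_periodLattice {N : ℕ} [NeZero N] {m : ℕ}
    (γ : CongruenceSubgroup.Gamma0 N) {φ : ℂ[X] →ₗ[ℂ] ℂ} (hφ : φ ∈ intFunctionals m) :
    φ ∘ₗ periodPolyLin γ ∈ periodLattice N m :=
  Submodule.subset_span ⟨γ, φ, hφ, rfl⟩

/-- To show that the period lattice is stable under an endomorphism `T`, it suffices to express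
each `periodPolyLin γ ∘ T` as a finite sum of `polyAct (integral matrix) ∘ periodPolyLin γ'`. -/
theorem periodLattice_stable_of_relation {N : ℕ} [NeZero N] {m : ℕ}
    (T : Module.End ℂ (CuspForm (CongruenceSubgroup.Gamma0 N) ((m : ℤ) + 2)))
    (h : ∀ γ : CongruenceSubgroup.Gamma0 N, ∃ (ι : Type) (s : Finset ι)
      (γ' : ι → CongruenceSubgroup.Gamma0 N) (a b c d : ι → ℤ),
      periodPolyLin γ ∘ₗ T = ∑ i ∈ s, polyAct m (a i) (b i) (c i) (d i) ∘ₗ periodPolyLin (γ' i))
    {l : CuspForm (CongruenceSubgroup.Gamma0 N) ((m : ℤ) + 2) →ₗ[ℂ] ℂ}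
    (hl : l ∈ periodLattice N m) : l ∘ₗ T ∈ periodLattice N m := by
  induction hl using Submodule.span_induction with
  | mem x hx =>
    obtain ⟨γ, φ, hφ, rfl⟩ := hx
    obtain ⟨ι, s, γ', a, b, c, d, hrel⟩ := h γ
    have hsum : φ ∘ₗ (∑ i ∈ s, polyAct m (a i) (b i) (c i) (d i) ∘ₗ
          periodPolyLin (m := m) (γ' i)) =
        ∑ i ∈ s, (φ ∘ₗ polyAct m (a i) (b i) (c i) (d i)) ∘ₗ periodPolyLin (m := m) (γ' i) := by
      ext f
      simp [LinearMap.sum_apply]
    rw [LinearMap.comp_assoc, hrel, hsum]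
    refine Submodule.sum_mem _ fun i _ => ?_
    exact comp_periodPolyLin_mem_periodLattice (γ' i)
      (comp_polyAct_mem_intFunctionals m (a i) (b i) (c i) (d i) hφ)
  | zero => simp
  | add x y _ _ hx hy =>
    rw [LinearMap.add_comp]
    exact Submodule.add_mem _ hx hy
  | smul n x _ hx =>
    rw [LinearMap.smul_comp]
    exact Submodule.smul_mem _ _ hx

end Fermat.Agent.S22
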