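import Mathlib
import Fermat.Prelude.Def_CuspForm_HeckeAlgebra
import Fermat.Prelude.Sol.S_ModularForm_heckeT_slash_eq_self_of_mem_Gamma0
import Fermat.Agent.S22.Eichler
import Fermat.Agent.S22.Lattice
import Fermat.Agent.S22.HeckeDeriv

/-!
# S22: the period lattice is stable under `U_q`
-/

set_option autoImplicit false

namespace Fermat.Agent.S22

open UpperHalfPlane Polynomial Matrix.SpecialLinearGroup
open scoped ModularForm MatrixGroups Manifold

open P2MW.S_ModularForm_heckeT_slash_eq_self_of_mem_Gamma0.ModularForm.HeckeSlashInvariance in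
/-- Coset relation for `U_q` (from the Prelude), with the new element in `Γ₀(N)`. -/
theorem heckeU_coset {N : ℕ} {q : ℕ} [NeZero q] (hqN : q ∣ N) (γ : CongruenceSubgroup.Gamma0 N)
    (x : ZMod q) :
    ∃ (γ' : CongruenceSubgroup.Gamma0 N) (y : ZMod q),
      y = affinePerm (γ : SL(2, ℤ)) ((ZMod.intCast_zmod_eq_zero_iff_dvd _ _).mpr
        ((Int.natCast_dvd_natCast.mpr hqN).trans
          ((ZMod.intCast_zmod_eq_zero_iff_dvd _ _).mp
            (CongruenceSubgroup.Gamma0_mem.mp γ.2)))) x ∧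
      ModularForm.heckeMatrix q x.val * mapGL ℝ (γ : SL(2, ℤ)) =
        mapGL ℝ (γ' : SL(2, ℤ)) * ModularForm.heckeMatrix q y.val := by
  have hcN : (N : ℤ) ∣ (γ : SL(2, ℤ)) 1 0 :=
    (ZMod.intCast_zmod_eq_zero_iff_dvd _ _).mp (CongruenceSubgroup.Gamma0_mem.mp γ.2)
  have hc : (q : ℤ) ∣ (γ : SL(2, ℤ)) 1 0 := (Int.natCast_dvd_natCast.mpr hqN).trans hcN
  obtain ⟨g', hg', hmul⟩ := heckeMatrix_mul_of_dvd (γ : SL(2, ℤ)) hc x
  have hg'N : g' ∈ CongruenceSubgroup.Gamma0 N := by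
    rw [CongruenceSubgroup.Gamma0_mem, hg']
    push_cast
    rw [CongruenceSubgroup.Gamma0_mem.mp γ.2, mul_zero]
  exact ⟨⟨g', hg'N⟩, _, rfl, hmul⟩

section

variable {N : ℕ} [NeZero N] {m : ℕ}

local notation "V" => CuspForm (CongruenceSubgroup.Gamma0 N) ((m : ℤ) + 2)

/-- The Eichler integral of `U_q f`. -/
theorem eichler_heckeU {q : ℕ} (hq0 : q ≠ 0) (hqN : q ∣ N) (f : V) :
    eichler (CuspForm.heckeULin ((m : ℤ) + 2) hqN f) =
      ((q : ℂ) ^ (m + 1)) • ModularForm.heckeU (-(m : ℤ)) q (eichler f) := by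
  apply eichler_eq
  · exact (mdiff_heckeU (mdiff_eichler f) _ _).const_smul _
  · rw [iterate_dH_heckeU m hq0 (mdiff_eichler f), iterate_dH_eichler]
    rfl
  · exact (isZeroAtImInfty_heckeU (isZeroAtImInfty_eichler f) _ _).smul _

theorem eichler_slash_eq (γ : SL(2, ℤ)) (f : V) :
    eichler f ∣[-(m : ℤ)] (mapGL ℝ γ) = eichler f + periodFun γ f := by
  simp [periodFun]

theorem smul_slash_mapGL_S22 (k : ℤ) (c : ℂ) (F : ℍ → ℂ) (γ : SL(2, ℤ)) :
    (c • F) ∣[k] (mapGL ℝ γ) = c • (F ∣[k] (mapGL ℝ γ)) := by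
  have hσ (x : ℂ) : σ (mapGL ℝ γ : GL (Fin 2) ℝ) x = x := by
    simp [σ]
  simp only [ModularForm.smul_slash, hσ]

open P2MW.S_ModularForm_heckeT_slash_eq_self_of_mem_Gamma0.ModularForm.HeckeSlashInvariance in
/-- The period function of `U_q f` in terms of period functions of `f`. -/
theorem periodFun_heckeU {q : ℕ} [NeZero q] (hqN : q ∣ N) (γ : CongruenceSubgroup.Gamma0 N)
    (f : V) (γ' : ZMod q → CongruenceSubgroup.Gamma0 N) (π : Equiv.Perm (ZMod q))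
    (h : ∀ x : ZMod q, ModularForm.heckeMatrix q x.val * mapGL ℝ (γ : SL(2, ℤ)) =
      mapGL ℝ (γ' x : SL(2, ℤ)) * ModularForm.heckeMatrix q (π x).val) :
    periodFun (γ : SL(2, ℤ)) (CuspForm.heckeULin ((m : ℤ) + 2) hqN f) =
      ((q : ℂ) ^ (m + 1)) • ∑ x : ZMod q,
        (periodFun (γ' x : SL(2, ℤ)) f) ∣[-(m : ℤ)] ModularForm.heckeMatrix q (π x).val := by
  have hq0 : q ≠ 0 := NeZero.ne q
  rw [periodFun, eichler_heckeU hq0 hqN f, smul_slash_mapGL_S22, ← smul_sub]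
  congr 1
  rw [heckeU_eq_sum_zmod, SlashAction.sum_slash]
  have h1 : ∀ x : ZMod q,
      (eichler f ∣[-(m : ℤ)] ModularForm.heckeMatrix q x.val) ∣[-(m : ℤ)]
          (mapGL ℝ (γ : SL(2, ℤ))) =
        eichler f ∣[-(m : ℤ)] ModularForm.heckeMatrix q (π x).val +
          (periodFun (γ' x : SL(2, ℤ)) f) ∣[-(m : ℤ)] ModularForm.heckeMatrix q (π x).val := by
    intro x
    rw [← SlashAction.slash_mul, h x, SlashAction.slash_mul, eichler_slash_eq,
      SlashAction.add_slash]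
  rw [Finset.sum_congr rfl fun x _ => h1 x, Finset.sum_add_distrib]
  have h2 : ∑ x : ZMod q, eichler f ∣[-(m : ℤ)] ModularForm.heckeMatrix q (π x).val =
      ∑ x : ZMod q, eichler f ∣[-(m : ℤ)] ModularForm.heckeMatrix q x.val :=
    Equiv.sum_comp π (fun x => eichler f ∣[-(m : ℤ)] ModularForm.heckeMatrix q x.val)
  rw [h2]
  abel

/-- Slash by a Hecke matrix on polynomial functions. -/
theorem slash_heckeMatrix_poly {q : ℕ} (hq0 : q ≠ 0) (j : ℕ) {F : ℍ → ℂ} {p : ℂ[X]}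
    (hp : p.natDegree ≤ m) (hF : ∀ τ : ℍ, F τ = p.eval (τ : ℂ)) (τ : ℍ) :
    ((q : ℂ) ^ (m + 1)) * (F ∣[-(m : ℤ)] ModularForm.heckeMatrix q j) τ =
      (polyAct m 1 (j : ℤ) 0 (q : ℤ) p).eval (τ : ℂ) := by
  have hdet : (ModularForm.heckeMatrix q j).val.det = (q : ℝ) := val_det_heckeMatrix hq0 j
  have hpos : 0 < (ModularForm.heckeMatrix q j).val.det := by
    rw [hdet]; exact_mod_cast Nat.pos_of_ne_zero hq0
  have hval := ModularForm.val_heckeMatrix hq0 j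
  have e00 : (ModularForm.heckeMatrix q j) 0 0 = ((1 : ℤ) : ℝ) := by
    show (ModularForm.heckeMatrix q j : Matrix (Fin 2) (Fin 2) ℝ) 0 0 = _
    rw [hval]; simp
  have e01 : (ModularForm.heckeMatrix q j) 0 1 = (((j : ℤ)) : ℝ) := by
    show (ModularForm.heckeMatrix q j : Matrix (Fin 2) (Fin 2) ℝ) 0 1 = _
    rw [hval]; simp
  have e10 : (ModularForm.heckeMatrix q j) 1 0 = ((0 : ℤ) : ℝ) := by
    show (ModularForm.heckeMatrix q j : Matrix (Fin 2) (Fin 2) ℝ) 1 0 = _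
    rw [hval]; simp
  have e11 : (ModularForm.heckeMatrix q j) 1 1 = (((q : ℤ)) : ℝ) := by
    show (ModularForm.heckeMatrix q j : Matrix (Fin 2) (Fin 2) ℝ) 1 1 = _
    rw [hval]; simp
  rw [slash_poly m hpos 1 (j : ℤ) 0 (q : ℤ) e00 e01 e10 e11 hp hF τ, hdet]
  have hq' : (q : ℂ) ≠ 0 := by exact_mod_cast hq0
  rw [← mul_assoc]
  have : (q : ℂ) ^ (m + 1) * (((q : ℝ) : ℂ)⁻¹) ^ (m + 1) = 1 := by
    rw [← mul_pow]
    have : (q : ℂ) * ((q : ℝ) : ℂ)⁻¹ = 1 := by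
      push_cast
      exact mul_inv_cancel₀ hq'
    rw [this, one_pow]
  rw [this, one_mul]

/-- The relation between period polynomials needed for stability under `U_q`. -/
theorem periodPolyLin_comp_heckeU {q : ℕ} [NeZero q] (hqN : q ∣ N)
    (γ : CongruenceSubgroup.Gamma0 N)
    (γ' : ZMod q → CongruenceSubgroup.Gamma0 N) (π : Equiv.Perm (ZMod q))
    (h : ∀ x : ZMod q, ModularForm.heckeMatrix q x.val * mapGL ℝ (γ : SL(2, ℤ)) =
      mapGL ℝ (γ' x : SL(2, ℤ)) * ModularForm.heckeMatrix q (π x).val) :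
    periodPolyLin (m := m) γ ∘ₗ CuspForm.heckeULin ((m : ℤ) + 2) hqN =
      ∑ x ∈ (Finset.univ : Finset (ZMod q)),
        polyAct m 1 (((π x).val : ℕ) : ℤ) 0 (q : ℤ) ∘ₗ periodPolyLin (m := m) (γ' x) := by
  have hq0 : q ≠ 0 := NeZero.ne q
  ext1 f
  rw [LinearMap.comp_apply, periodPolyLin_apply, LinearMap.sum_apply]
  apply periodPoly_eq
  intro τ
  rw [periodFun_heckeU hqN γ f γ' π h, Pi.smul_apply, Finset.sum_apply, smul_eq_mul,
    Finset.mul_sum, eval_finsetSum]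
  refine Finset.sum_congr rfl fun x _ => ?_
  rw [LinearMap.comp_apply, periodPolyLin_apply]
  exact slash_heckeMatrix_poly hq0 (π x).val (natDegree_periodPoly (γ' x) f)
    (periodFun_eq_eval (γ' x) f) τ

open P2MW.S_ModularForm_heckeT_slash_eq_self_of_mem_Gamma0.ModularForm.HeckeSlashInvariance in
/-- **Stability of the period lattice under `U_q`.** -/
theorem periodLattice_stable_U {N : ℕ} [NeZero N] {m : ℕ} {q : ℕ} (hq : q.Prime) (hqN : q ∣ N)
    {l : CuspForm (CongruenceSubgroup.Gamma0 N) ((m : ℤ) + 2) →ₗ[ℂ] ℂ}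
    (hl : l ∈ periodLattice N m) :
    l ∘ₗ (CuspForm.heckeULin ((m : ℤ) + 2) hqN) ∈ periodLattice N m := by
  have : NeZero q := ⟨hq.ne_zero⟩
  refine periodLattice_stable_of_relation (CuspForm.heckeULin ((m : ℤ) + 2) hqN) ?_ hl
  intro γ
  have hc0 : (((γ : SL(2, ℤ)) 1 0 : ℤ) : ZMod q) = 0 :=
    (ZMod.intCast_zmod_eq_zero_iff_dvd _ _).mpr
      ((Int.natCast_dvd_natCast.mpr hqN).trans
        ((ZMod.intCast_zmod_eq_zero_iff_dvd _ _).mp (CongruenceSubgroup.Gamma0_mem.mp γ.2)))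
  have hex : ∀ x : ZMod q, ∃ γ' : CongruenceSubgroup.Gamma0 N,
      ModularForm.heckeMatrix q x.val * mapGL ℝ (γ : SL(2, ℤ)) =
        mapGL ℝ (γ' : SL(2, ℤ)) *
          ModularForm.heckeMatrix q (affinePerm (γ : SL(2, ℤ)) hc0 x).val := by
    intro x
    obtain ⟨γ', y, hy, hmul⟩ := heckeU_coset hqN γ x
    exact ⟨γ', hy ▸ hmul⟩
  choose γ' hγ' using hex
  exact ⟨ZMod q, Finset.univ, γ', fun _ => 1,
    fun x => (((affinePerm (γ : SL(2, ℤ)) hc0 x).val : ℕ) : ℤ), fun _ => 0, fun _ => (q : ℤ),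
    periodPolyLin_comp_heckeU hqN γ γ' (affinePerm (γ : SL(2, ℤ)) hc0) hγ'⟩

end

end Fermat.Agent.S22
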