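import Mathlib
import Fermat.Agent.S22.PolyAct

set_option autoImplicit false

namespace Fermat.Agent.S22

open Polynomial

/-- Abstract finite generation of the lattice of "integral coefficient functionals" of a cocycle
on a finitely generated group. -/
theorem cocycle_lattice_fg {Γ : Type*} [Group Γ] [Group.FG Γ] {V : Type*} [AddCommGroup V]
    [Module ℂ V] (m : ℕ)
    (ρ : Γ → (V →ₗ[ℂ] ℂ[X])) (act : Γ → (ℂ[X] →ₗ[ℂ] ℂ[X]))
    (hact : ∀ γ, ∀ φ ∈ intFunctionals m, φ ∘ₗ act γ ∈ intFunctionals m)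
    (hone : ρ 1 = 0)
    (hmul : ∀ γ δ, ρ (γ * δ) = act δ ∘ₗ ρ γ + ρ δ) :
    (Submodule.span ℤ {l : V →ₗ[ℂ] ℂ | ∃ γ : Γ, ∃ φ ∈ intFunctionals m, l = φ ∘ₗ ρ γ}).FG := by
  classical
  obtain ⟨S, hS⟩ := (Group.fg_def (G := Γ)).mp inferInstance
  -- the finitely generated candidate lattice
  let gen : Set (V →ₗ[ℂ] ℂ) :=
    (fun x : Γ × Fin (m + 1) => lcoeff ℂ (x.2 : ℕ) ∘ₗ ρ x.1) '' ((S : Set Γ) ×ˢ Set.univ)
  have hgenfin : gen.Finite := (S.finite_toSet.prod Set.finite_univ).image _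
  let Λ₀ : Submodule ℤ (V →ₗ[ℂ] ℂ) := Submodule.span ℤ gen
  have hΛ₀fg : Λ₀.FG := Submodule.fg_span hgenfin
  -- generators
  have hS_mem : ∀ s ∈ S, ∀ φ ∈ intFunctionals m, φ ∘ₗ ρ s ∈ Λ₀ := by
    intro s hs φ hφ
    induction hφ using Submodule.span_induction with
    | mem x hx =>
      obtain ⟨j, rfl⟩ := hx
      exact Submodule.subset_span ⟨(s, j), ⟨hs, Set.mem_univ _⟩, rfl⟩
    | zero => simp
    | add x y _ _ hx hy =>
      rw [LinearMap.add_comp]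
      exact Λ₀.add_mem hx hy
    | smul n x _ hx =>
      rw [LinearMap.smul_comp]
      exact Λ₀.smul_mem n hx
  -- the subgroup of good elements
  have hinv_formula : ∀ γ : Γ, ρ γ⁻¹ = -(act γ⁻¹ ∘ₗ ρ γ) := by
    intro γ
    have h := hmul γ γ⁻¹
    rw [mul_inv_cancel, hone] at h
    exact eq_neg_of_add_eq_zero_right h.symm
  let H : Subgroup Γ :=
    { carrier := {γ | ∀ φ ∈ intFunctionals m, φ ∘ₗ ρ γ ∈ Λ₀}
      one_mem' := by
        intro φ _
        rw [hone]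
        simp
      mul_mem' := by
        intro γ δ hγ hδ φ hφ
        rw [hmul, LinearMap.comp_add, ← LinearMap.comp_assoc]
        exact Λ₀.add_mem (hγ _ (hact δ φ hφ)) (hδ φ hφ)
      inv_mem' := by
        intro γ hγ φ hφ
        rw [hinv_formula, LinearMap.comp_neg, ← LinearMap.comp_assoc]
        exact Λ₀.neg_mem (hγ _ (hact γ⁻¹ φ hφ)) }
  have hH : H = ⊤ := by
    rw [eq_top_iff, ← hS, Subgroup.closure_le]
    intro s hs
    exact hS_mem s (Finset.mem_coe.mp hs)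
  have hall : ∀ γ : Γ, ∀ φ ∈ intFunctionals m, φ ∘ₗ ρ γ ∈ Λ₀ := by
    intro γ
    have : γ ∈ H := by rw [hH]; exact Subgroup.mem_top γ
    exact this
  have heq : Submodule.span ℤ {l : V →ₗ[ℂ] ℂ | ∃ γ : Γ, ∃ φ ∈ intFunctionals m, l = φ ∘ₗ ρ γ}
      = Λ₀ := by
    apply le_antisymm
    · rw [Submodule.span_le]
      rintro l ⟨γ, φ, hφ, rfl⟩
      exact hall γ φ hφ
    · rw [Submodule.span_le]
      rintro l ⟨⟨s, j⟩, _, rfl⟩
      exact Submodule.subset_span ⟨s, lcoeff ℂ (j : ℕ),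
        lcoeff_mem_intFunctionals (Nat.lt_succ_iff.mp j.2), rfl⟩
  rw [heq]
  exact hΛ₀fg

end Fermat.Agent.S22
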