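import Mathlib

set_option autoImplicit false
set_option linter.style.haveILetI false

namespace Fermat.Agent.S22

/-- Algebraic core: a `ℤ`-subalgebra of `End_ℂ V` generated by a set `G` is a finite `ℤ`-module as
soon as there is a finitely generated `ℤ`-submodule `Λ` of the dual `V →ₗ[ℂ] ℂ` which separates
the points of `V` and is stable under precomposition with every generator. -/
theorem moduleFinite_adjoin_of_dual_lattice {V : Type*} [AddCommGroup V] [Module ℂ V]
    (G : Set (Module.End ℂ V)) (Λ : Submodule ℤ (V →ₗ[ℂ] ℂ)) (hfg : Λ.FG)
    (hsep : ∀ v : V, (∀ l ∈ Λ, l v = 0) → v = 0)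
    (hstab : ∀ g ∈ G, ∀ l ∈ Λ, l ∘ₗ g ∈ Λ) :
    Module.Finite ℤ (Algebra.adjoin ℤ G) := by
  classical
  -- the subalgebra of endomorphisms whose transpose preserves `Λ`
  let E : Subalgebra ℤ (Module.End ℂ V) :=
    { carrier := {t | ∀ l ∈ Λ, l ∘ₗ t ∈ Λ}
      mul_mem' := by
        intro a b ha hb l hl
        have := hb _ (ha l hl)
        simpa [LinearMap.comp_assoc, Module.End.mul_eq_comp] using this
      one_mem' := by
        intro l hl
        have : l ∘ₗ (1 : Module.End ℂ V) = l := by
          ext v
          simp
        rw [this]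
        exact hl
      add_mem' := by
        intro a b ha hb l hl
        rw [LinearMap.comp_add]
        exact Λ.add_mem (ha l hl) (hb l hl)
      zero_mem' := by
        intro l hl
        simp
      algebraMap_mem' := by
        intro n l hl
        have : l ∘ₗ (algebraMap ℤ (Module.End ℂ V) n) = n • l := by
          ext v
          simp
        rw [this]
        exact Λ.smul_mem n hl }
  have hle : Algebra.adjoin ℤ G ≤ E := Algebra.adjoin_le fun g hg => hstab g hg
  haveI : Module.Finite ℤ Λ := Module.Finite.iff_fg.mpr hfg
  haveI : IsAddTorsionFree (V →ₗ[ℂ] ℂ) := .of_isTorsionFree ℂ _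
  haveI : IsAddTorsionFree Λ := by
    constructor
    intro n hn a b hab
    apply Subtype.ext
    have h : n • (a : V →ₗ[ℂ] ℂ) = n • (b : V →ₗ[ℂ] ℂ) := congrArg Subtype.val hab
    exact nsmul_right_injective hn h
  haveI : Module.Free ℤ Λ := Module.free_of_finite_type_torsion_free'
  -- the transpose action on `Λ`
  let φ : (Algebra.adjoin ℤ G) →ₗ[ℤ] Module.End ℤ Λ :=
    { toFun := fun t =>
        { toFun := fun l => ⟨(l : V →ₗ[ℂ] ℂ) ∘ₗ (t : Module.End ℂ V), hle t.2 _ l.2⟩
          map_add' := by
            intro l l'
            apply Subtype.ext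
            simp [LinearMap.add_comp]
          map_smul' := by
            intro n l
            apply Subtype.ext
            ext v
            simp }
      map_add' := by
        intro t t'
        ext l v
        simp
      map_smul' := by
        intro n t
        ext l v
        simp }
  have hφ : Function.Injective φ := by
    intro t t' h
    apply Subtype.ext
    ext v
    apply sub_eq_zero.mp
    apply hsep
    intro l hl
    have h1 := congrArg (fun e : Module.End ℤ Λ => ((e ⟨l, hl⟩ : Λ) : V →ₗ[ℂ] ℂ) v) h
    simp only [φ, LinearMap.coe_mk, AddHom.coe_mk, LinearMap.comp_apply] at h1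
    rw [map_sub, h1, sub_self]
  exact Module.Finite.of_injective φ hφ

end Fermat.Agent.S22
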